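import Fermat.Agent.S26.Top.V1.Main
import Fermat.Agent.S26.Top.StarDeg

/-! # S26 / V1 : `q_D(α) = deg ((C,α) * (κ(ζ), ζ))`. -/

set_option autoImplicit false

universe u

namespace Fermat.Agent.S26

open AlgebraicCurve IsLocalRing PField

variable {K : Type u} [Field K] [IsAlgClosed K] {F : Type u} [Field F] [Algebra K F] (M : AVModel K F)

namespace V1

theorem ctr_red_placeOf {ζ : M.X} (hζ : M.IsPrimeDivisor ζ) :
    M.ctr (M.red (M.placeOf ζ hζ) M.eta) = ζ := by
  rw [M.ctr_red, M.cen_placeOf_eta]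

theorem fd_red_placeOf {ζ : M.X} (hζ : M.IsPrimeDivisor ζ) :
    M.fd (M.red (M.placeOf ζ hζ) M.eta) = ⊤ := by
  rw [eq_top_iff]
  intro w _
  obtain ⟨a, rfl⟩ := residue_surjective w
  rw [M.mem_fd]
  have ha : (a : F) ∈ M.O (M.cen (M.placeOf ζ hζ) M.eta) := by
    rw [M.cen_placeOf_eta]; exact (M.mem_placeOf hζ _).1 a.2
  refine ⟨a, by rw [M.ctr_red]; exact ha, ?_⟩
  have h1 : M.ev (M.lift (M.placeOf ζ hζ) M.eta) (a : F) = a := by
    apply Subtype.ext
    rw [M.ev_lift _ _ _ ha, M.ev_eta]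
  have h2 := M.ev_map (IsScalarTower.toAlgHom K (M.placeOf ζ hζ).toValuationSubring
    (M.placeOf ζ hζ).ResidueField) (M.lift (M.placeOf ζ hζ) M.eta) (a : F) ha
  rw [h1] at h2
  exact h2

theorem essFiniteType_residueField_placeOf {ζ : M.X} (hζ : M.IsPrimeDivisor ζ) :
    Algebra.EssFiniteType K (M.placeOf ζ hζ).ResidueField := by
  apply Algebra.EssFiniteType.of_surjective (M.resEmb (M.red (M.placeOf ζ hζ) M.eta))
  intro w
  have : w ∈ (M.resEmb (M.red (M.placeOf ζ hζ) M.eta)).fieldRange := by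
    rw [M.fieldRange_resEmb, fd_red_placeOf]; trivial
  exact this

/-- `(κ(v_ζ), η mod v_ζ)` -/
noncomputable def pfPlace {ζ : M.X} (hζ : M.IsPrimeDivisor ζ) : PField M where
  carrier := (M.placeOf ζ hζ).ResidueField
  ess := essFiniteType_residueField_placeOf M hζ
  pt := M.red (M.placeOf ζ hζ) M.eta

variable {FC : Type u} [Field FC] [Algebra K FC] [FF1 K FC]

theorem deg_star_pfPlace {ζ : M.X} (hζ : M.IsPrimeDivisor ζ) (α : M.Pt FC) :
    (star α (pfPlace M hζ)).deg = (star α (M.pfOf ζ)).deg := by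
  have h := deg_star_eq_mul' (pfPlace M hζ) α
  have h1 : Module.finrank (M.fd (pfPlace M hζ).pt) (pfPlace M hζ).carrier = 1 := by
    have : M.fd (pfPlace M hζ).pt = ⊤ := fd_red_placeOf M hζ
    rw [this]
    exact IntermediateField.finrank_top
  have h2 : M.ctr (pfPlace M hζ).pt = ζ := ctr_red_placeOf M hζ
  rw [h1, one_mul, h2] at h
  exact h

theorem main {ζ : M.X} (hζ : M.IsPrimeDivisor ζ) (α : M.Pt FC) :
    M.qD ζ α = (star α (M.pfOf ζ)).deg := by
  rw [← deg_star_pfPlace M hζ α, qD_eq M hζ α]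
  unfold PField.deg
  by_cases h : M.IsGeneric (wbar M hζ α)
  · rw [dif_pos h]
    have h' : M.IsGeneric (star α (pfPlace M hζ)).pt := h
    rw [dif_pos h']
    rfl
  · rw [dif_neg h]
    have h' : ¬ M.IsGeneric (star α (pfPlace M hζ)).pt := h
    rw [dif_neg h']
    rfl

end V1

end Fermat.Agent.S26
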