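import Fermat.Agent.S26.Model.Basic

/-! # S26 / V1-Lift : functoriality of `lift`, `red`, `cen` for extensions of places.

TASK S26/V1-Lift: fill the sorries of this file (all are formal consequences of `AVModel.lift_eq_map`,
`ctr_map_of_isLocalHom`, `ctr_map_le`, `ev_lift`, `ev_isUnit`, `map_emb_eta`, `O_injective`). -/

set_option autoImplicit false

universe u

namespace Fermat.Agent.S26

open AlgebraicCurve IsLocalRing

variable {K : Type u} [Field K]

section places

variable {Φ Φ' : Type u} [Field Φ] [Algebra K Φ] [Field Φ'] [Algebra K Φ']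

/-- corestriction of `j : B → Φ` to the valuation ring of `w` -/
def placeCod (w : Place K Φ) {B : Type u} [CommRing B] [Algebra K B] (j : B →ₐ[K] Φ)
    (h : ∀ b, j b ∈ w.toValuationSubring) : B →ₐ[K] w.toValuationSubring where
  toFun b := ⟨j b, h b⟩
  map_one' := Subtype.ext (map_one j)
  map_mul' a b := Subtype.ext (map_mul j a b)
  map_zero' := Subtype.ext (map_zero j)
  map_add' a b := Subtype.ext (map_add j a b)
  commutes' c := Subtype.ext (j.commutes c)

@[simp] theorem coe_placeCod (w : Place K Φ) {B : Type u} [CommRing B] [Algebra K B] (j : B →ₐ[K] Φ)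
    (h : ∀ b, j b ∈ w.toValuationSubring) (b : B) : ((placeCod w j h b : w.toValuationSubring) : Φ) = j b :=
  rfl

/-- `B → O_w → κ(w)` -/
noncomputable def placeCodRes (w : Place K Φ) {B : Type u} [CommRing B] [Algebra K B] (j : B →ₐ[K] Φ)
    (h : ∀ b, j b ∈ w.toValuationSubring) : B →ₐ[K] w.ResidueField :=
  (IsScalarTower.toAlgHom K w.toValuationSubring w.ResidueField).comp (placeCod w j h)

theorem placeCodRes_apply (w : Place K Φ) {B : Type u} [CommRing B] [Algebra K B] (j : B →ₐ[K] Φ)
    (h : ∀ b, j b ∈ w.toValuationSubring) (b : B) :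
    placeCodRes w j h b = residue w.toValuationSubring ⟨j b, h b⟩ := rfl

/-- `w` lies over `v` along `j : Φ → Φ'`, i.e. `O_w ∩ Φ = O_v`. -/
def PlaceOver (v : Place K Φ) (w : Place K Φ') (j : Φ →ₐ[K] Φ') : Prop :=
  ∀ a : Φ, j a ∈ w.toValuationSubring ↔ a ∈ v.toValuationSubring

namespace PlaceOver

variable {v : Place K Φ} {w : Place K Φ'} {j : Φ →ₐ[K] Φ'} (h : PlaceOver v w j)

/-- `O_v → O_w` -/
def ringMap : v.toValuationSubring →ₐ[K] w.toValuationSubring :=
  placeCod w (j.comp (IsScalarTower.toAlgHom K v.toValuationSubring Φ)) (fun a => (h a).2 a.2)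

@[simp] theorem coe_ringMap (a : v.toValuationSubring) : ((h.ringMap a : w.toValuationSubring) : Φ') = j a :=
  rfl

theorem isUnit_of_isUnit_ringMap (a : v.toValuationSubring) (ha : IsUnit (h.ringMap a)) : IsUnit a := by
  obtain ⟨b, hb⟩ := isUnit_iff_exists_inv.mp ha
  have hb' : j a * (b : Φ') = 1 := congrArg Subtype.val hb
  have hj0 : j (a : Φ) ≠ 0 := left_ne_zero_of_mul_eq_one hb'
  have ha0 : (a : Φ) ≠ 0 := by
    intro h0
    rw [h0, map_zero] at hj0
    exact hj0 rfl
  have hinv : (a : Φ)⁻¹ ∈ v.toValuationSubring := by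
    rw [← h, map_inv₀, ← eq_inv_of_mul_eq_one_right hb']
    exact b.2
  exact isUnit_iff_exists_inv.mpr ⟨⟨_, hinv⟩, Subtype.ext (mul_inv_cancel₀ ha0)⟩

theorem exists_resMap : ∃ φ : v.ResidueField →ₐ[K] w.ResidueField,
    ∀ a : v.toValuationSubring, φ (residue _ a) = residue _ (h.ringMap a) := by
  have hker : ∀ a ∈ maximalIdeal v.toValuationSubring,
      ((IsScalarTower.toAlgHom K w.toValuationSubring w.ResidueField).comp h.ringMap) a = 0 := by
    intro a ha
    change residue w.toValuationSubring (h.ringMap a) = 0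
    rw [residue_eq_zero_iff]
    intro hu
    exact ha (h.isUnit_of_isUnit_ringMap a hu)
  exact ⟨Ideal.Quotient.liftₐ (maximalIdeal v.toValuationSubring) _ hker, fun a => rfl⟩

/-- `κ(v) → κ(w)` -/
noncomputable def resMap : v.ResidueField →ₐ[K] w.ResidueField := h.exists_resMap.choose

theorem resMap_residue (a : v.toValuationSubring) : h.resMap (residue _ a) = residue _ (h.ringMap a) :=
  h.exists_resMap.choose_spec a

end PlaceOver

end places

namespace AVModel

variable {F : Type u} [Field F] [Algebra K F] (M : AVModel K F)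
variable {Φ Φ' : Type u} [Field Φ] [Algebra K Φ] [Field Φ'] [Algebra K Φ']

theorem lift_map_placeCod (w : Place K Φ) {B : Type u} [CommRing B] [Algebra K B] (j : B →ₐ[K] Φ)
    (h : ∀ b, j b ∈ w.toValuationSubring) (x : M.Pt B) :
    M.lift w (M.map j x) = M.map (placeCod w j h) x := by
  exact M.lift_eq_map w (placeCod w j h) x (M.map j x) rfl

theorem red_map_placeCod (w : Place K Φ) {B : Type u} [CommRing B] [Algebra K B] (j : B →ₐ[K] Φ)
    (h : ∀ b, j b ∈ w.toValuationSubring) (x : M.Pt B) :
    M.red w (M.map j x) = M.map (placeCodRes w j h) x := by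
  rw [red, M.lift_map_placeCod w j h, bc, ← M.map_comp]
  rfl

section over_

variable {v : Place K Φ} {w : Place K Φ'} {j : Φ →ₐ[K] Φ'}

theorem lift_map_of_placeOver (h : PlaceOver v w j) (x : M.Pt Φ) : M.lift w (M.map j x) = M.map h.ringMap (M.lift v x) := by
  apply M.lift_eq_map w h.ringMap (M.lift v x) (M.map j x)
  have : (IsScalarTower.toAlgHom K w.toValuationSubring Φ').comp h.ringMap =
      j.comp (IsScalarTower.toAlgHom K v.toValuationSubring Φ) := rfl
  rw [this, M.map_comp, M.map_lift]

theorem red_map_of_placeOver (h : PlaceOver v w j) (x : M.Pt Φ) : M.red w (M.map j x) = M.map h.resMap (M.red v x) := by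
  rw [red, M.lift_map_of_placeOver h, red, bc, bc, ← M.map_comp, ← M.map_comp]
  congr 1
  exact AlgHom.ext fun a => (h.resMap_residue a).symm

theorem cen_map_of_placeOver (h : PlaceOver v w j) (x : M.Pt Φ) : M.cen w (M.map j x) = M.cen v x := by
  rw [cen, M.lift_map_of_placeOver h]
  exact M.ctr_map_of_isLocalHom _ h.isUnit_of_isUnit_ringMap _

end over_

theorem isGeneric_red_iff (w : Place K Φ) (x : M.Pt Φ) : M.IsGeneric (M.red w x) ↔ M.cen w x = M.genPt := by
  rw [IsGeneric, M.ctr_red]

/-- the centre of a generic point `x` is generic iff `w` is trivial on `K(x)` -/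
theorem cen_eq_genPt_iff (w : Place K Φ) (x : M.Pt Φ) (hx : M.IsGeneric x) :
    M.cen w x = M.genPt ↔ ∀ r, M.emb x hx r ∈ w.toValuationSubring := by
  constructor
  · intro hc r
    have hr : r ∈ M.O (M.cen w x) := by rw [hc, M.O_genPt]; trivial
    rw [emb_apply, ← M.ev_lift w x r hr]
    exact (M.ev (M.lift w x) r).2
  · intro h
    apply M.O_injective
    rw [M.O_genPt, eq_top_iff]
    have h1 := M.lift_map_placeCod w (M.emb x hx) h M.eta
    rw [M.map_emb_eta] at h1
    have h2 := M.ctr_map_le (placeCod w (M.emb x hx) h) M.eta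
    rw [← h1, M.ctr_eta, M.O_genPt] at h2
    exact h2

/-- If `O_v = O (cen w x)` for a place `v` of `F` and a generic point `x`, then `w` lies over `v`. -/
theorem placeOver_of_cen (w : Place K Φ) (x : M.Pt Φ) (hx : M.IsGeneric x) (v : Place K F)
    (hv : ∀ r : F, r ∈ v.toValuationSubring ↔ r ∈ M.O (M.cen w x)) : PlaceOver v w (M.emb x hx) := by
  intro a
  rw [hv]
  constructor
  · intro ha
    by_contra hcon
    have ha0 : a ≠ 0 := by
      rintro rfl
      exact hcon (zero_mem _)
    have hinv : a⁻¹ ∈ M.O (M.cen w x) := by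
      rw [← hv]
      exact (v.toValuationSubring.mem_or_inv_mem a).resolve_left (fun h => hcon ((hv a).mp h))
    have h1 := M.ev_lift w x a⁻¹ hinv
    have h2 : M.ev x a⁻¹ = (M.emb x hx a)⁻¹ := by rw [← map_inv₀]; rfl
    have h0 : M.emb x hx a ≠ 0 := (map_ne_zero (M.emb x hx)).mpr ha0
    have hu : IsUnit (M.ev (M.lift w x) a⁻¹) := by
      refine isUnit_iff_exists_inv.mpr ⟨⟨_, ha⟩, Subtype.ext ?_⟩
      push_cast
      rw [h1, h2]
      exact inv_mul_cancel₀ h0
    have := M.ev_isUnit (M.lift w x) a⁻¹ hinv hu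
    rw [inv_inv] at this
    exact hcon this
  · intro ha
    rw [emb_apply, ← M.ev_lift w x a ha]
    exact (M.ev (M.lift w x) a).2

end AVModel

end Fermat.Agent.S26
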