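import Fermat.Agent.S26.Model.Div
import Fermat.Agent.S26.Top.V1.Lift

/-! # S26 / V1-PlaceOf : the local ring `O ζ` of a prime divisor as a place of `F/K`.

TASK S26/V1-PlaceOf: fill the sorries.

* `exists_placeOf`: `O ζ` is a noetherian (`isNoetherianRing_O`) local domain whose maximal ideal is generated by
  `s = locEq ζ ζ` (`locEq_self_spec`), and it is not a field (`O ζ ≠ ⊤`: `dim ζ = g - 1 ≠ g = dim genPt`,
  `O_injective`, `exists_fraction`).  So it is a DVR with fraction field `F` (`exists_fraction`); in particular for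
  all `r : F`, `r ∈ O ζ ∨ r⁻¹ ∈ O ζ`.
* `cen_placeOf_eta`: `exists_pt_valuationSubring` + `eq_of_ev_eq_coe` (compare with `lift v η`, `ev_lift`, `ev_eta`). -/

set_option autoImplicit false

universe u

namespace Fermat.Agent.S26

open AlgebraicCurve IsLocalRing

namespace AVModel

variable {K : Type u} [Field K] {F : Type u} [Field F] [Algebra K F] (M : AVModel K F)

theorem locEq_eq_one_of_not_le (ζ a : M.X) (h : ¬ M.O a ≤ M.O ζ) : M.locEq ζ a = 1 := by
  by_cases hζ : M.IsPrimeDivisor ζ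
  · exact (M.locEq_spec hζ a).2.2.1 h
  · exact M.locEq_of_not hζ a

theorem not_O_genPt_le {ζ : M.X} (hζ : M.IsPrimeDivisor ζ) : ¬ M.O M.genPt ≤ M.O ζ := by
  intro h
  have h1 : ζ = M.genPt := M.O_injective (le_antisymm (M.le_O_genPt ζ) h)
  have h2 := M.dim_genPt
  rw [← h1] at h2
  unfold IsPrimeDivisor at hζ
  omega

theorem locEq_genPt {ζ : M.X} (hζ : M.IsPrimeDivisor ζ) : M.locEq ζ M.genPt = 1 :=
  M.locEq_eq_one_of_not_le ζ _ (M.not_O_genPt_le hζ)

theorem maximalIdeal_O_eq_span {ζ : M.X} (hζ : M.IsPrimeDivisor ζ) :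
    maximalIdeal (M.O ζ) = Ideal.span {(⟨M.locEq ζ ζ, M.locEq_mem ζ ζ⟩ : M.O ζ)} := by
  ext r
  rw [mem_maximalIdeal, mem_nonunits_iff, isUnit_subalgebra_iff, Ideal.mem_span_singleton']
  have h := M.locEq_self_spec hζ r r.2
  constructor
  · intro hr
    obtain ⟨t, ht, hrt⟩ := h.mp (by
      by_contra hcon
      push Not at hcon
      exact hr hcon)
    exact ⟨⟨t, ht⟩, Subtype.ext (by rw [hrt, mul_comm]; rfl)⟩
  · rintro ⟨t, ht⟩ ⟨h0, hinv⟩
    rcases h.mpr ⟨t, t.2, by rw [← ht, mul_comm]; rfl⟩ with h1 | h1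
    · exact h0 h1
    · exact h1 hinv

theorem exists_placeOf (ζ : M.X) (hζ : M.IsPrimeDivisor ζ) :
    ∃ v : Place K F, ∀ r : F, r ∈ v.toValuationSubring ↔ r ∈ M.O ζ := by
  have hs0 := M.locEq_ne_zero ζ ζ
  have hsinv := M.locEq_inv_not_mem hζ (le_refl (M.O ζ))
  have hmax := M.maximalIdeal_O_eq_span hζ
  have hnf : ¬ IsField (M.O ζ) := by
    intro hf
    obtain ⟨b, hb⟩ := hf.mul_inv_cancel (a := (⟨M.locEq ζ ζ, M.locEq_mem ζ ζ⟩ : M.O ζ))
      (fun h => hs0 (congrArg Subtype.val h))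
    have hb' : M.locEq ζ ζ * (b : F) = 1 := congrArg Subtype.val hb
    apply hsinv
    rw [← eq_inv_of_mul_eq_one_right hb']
    exact b.2
  have hdvr : IsDiscreteValuationRing (M.O ζ) :=
    ((IsDiscreteValuationRing.TFAE (M.O ζ) hnf).out 4 0).mp
      (⟨⟨_, hmax⟩⟩ : (maximalIdeal (M.O ζ)).IsPrincipal)
  have hfr : IsFractionRing (M.O ζ) F := IsFractionRing.of_field (M.O ζ) F (fun z => by
    obtain ⟨a, b, hb, hab⟩ := M.exists_fraction ζ z
    have hb0 : (b : F) ≠ 0 := fun h => hb (Subtype.ext h)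
    refine ⟨a, b, ?_⟩
    change z = (a : F) / (b : F)
    rw [← hab]; field_simp)
  let V : ValuationSubring F :=
    { (M.O ζ).toSubring with
      mem_or_inv_mem' := fun x => by
        rcases ValuationRing.isInteger_or_isInteger (M.O ζ) x with ⟨a, ha⟩ | ⟨a, ha⟩
        · left
          rw [← ha]; exact a.2
        · right
          rw [← ha]; exact a.2 }
  have hV : ∀ r : F, r ∈ V ↔ r ∈ M.O ζ := fun r => Iff.rfl
  let e : M.O ζ →+* V :=
    { toFun := fun r => ⟨r, r.2⟩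
      map_one' := rfl
      map_mul' := fun _ _ => rfl
      map_zero' := rfl
      map_add' := fun _ _ => rfl }
  have he : Function.Surjective e := fun r => ⟨⟨r, r.2⟩, rfl⟩
  refine ⟨⟨V, fun a => (M.O ζ).algebraMap_mem a, ?_, IsPrincipalIdealRing.of_surjective e he⟩, hV⟩
  intro htop
  apply M.not_O_genPt_le hζ
  intro r _
  rw [← hV, htop]
  exact ValuationSubring.mem_top r

/-- `O ζ` as a place of `F/K` -/
noncomputable def placeOf (ζ : M.X) (hζ : M.IsPrimeDivisor ζ) : Place K F := (M.exists_placeOf ζ hζ).choose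

theorem mem_placeOf {ζ : M.X} (hζ : M.IsPrimeDivisor ζ) (r : F) :
    r ∈ (M.placeOf ζ hζ).toValuationSubring ↔ r ∈ M.O ζ := (M.exists_placeOf ζ hζ).choose_spec r

theorem ord_placeOf_locEq {ζ : M.X} (hζ : M.IsPrimeDivisor ζ) : (M.placeOf ζ hζ).ord (M.locEq ζ ζ) = 1 := by
  have hmem : M.locEq ζ ζ ∈ (M.placeOf ζ hζ).toValuationSubring :=
    (M.mem_placeOf hζ _).mpr (M.locEq_mem ζ ζ)
  have hirr : Irreducible (⟨M.locEq ζ ζ, hmem⟩ : (M.placeOf ζ hζ).toValuationSubring) := by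
    rw [IsDiscreteValuationRing.irreducible_iff_uniformizer]
    ext r
    rw [mem_maximalIdeal, mem_nonunits_iff, Ideal.mem_span_singleton']
    have hr : (r : F) ∈ M.O ζ := (M.mem_placeOf hζ _).mp r.2
    have h := M.locEq_self_spec hζ r hr
    constructor
    · intro hu
      obtain ⟨t, ht, hrt⟩ := h.mp (by
        by_contra hcon
        push Not at hcon
        exact hu (isUnit_iff_exists_inv.mpr ⟨⟨_, (M.mem_placeOf hζ _).mpr hcon.2⟩,
          Subtype.ext (mul_inv_cancel₀ hcon.1)⟩))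
      exact ⟨⟨t, (M.mem_placeOf hζ _).mpr ht⟩, Subtype.ext (by rw [hrt, mul_comm]; rfl)⟩
    · rintro ⟨t, ht⟩ hu
      obtain ⟨b, hb⟩ := isUnit_iff_exists_inv.mp hu
      have hb' : (r : F) * (b : F) = 1 := congrArg Subtype.val hb
      rcases h.mpr ⟨t, (M.mem_placeOf hζ _).mp t.2, by rw [← ht, mul_comm]; rfl⟩ with h1 | h1
      · exact left_ne_zero_of_mul_eq_one hb' h1
      · apply h1
        rw [← eq_inv_of_mul_eq_one_right hb']
        exact (M.mem_placeOf hζ _).mp b.2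
  exact (M.placeOf ζ hζ).ord_coe_irreducible hirr

theorem cen_placeOf_eta {ζ : M.X} (hζ : M.IsPrimeDivisor ζ) : M.cen (M.placeOf ζ hζ) M.eta = ζ := by
  obtain ⟨x, hx, hxe⟩ := M.exists_pt_valuationSubring (M.placeOf ζ hζ).toValuationSubring ζ
    (fun r hr => (M.mem_placeOf hζ r).mpr hr) (fun r _ hinv => (M.mem_placeOf hζ _).mp hinv)
  have := M.eq_of_ev_eq_coe (M.placeOf ζ hζ).toValuationSubring x (M.lift (M.placeOf ζ hζ) M.eta)
    (by rw [hx]; exact hxe) (fun r hr => by rw [M.ev_lift _ _ r hr, M.ev_eta])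
  rw [cen, ← this, hx]

/-- `trdeg κ(v_ζ) = g - 1` -/
theorem trdeg_residueField_placeOf {ζ : M.X} (hζ : M.IsPrimeDivisor ζ) :
    Algebra.trdeg K (M.placeOf ζ hζ).ResidueField + 1 = M.g := by
  let f : M.O ζ →ₐ[K] (M.placeOf ζ hζ).ResidueField :=
    placeCodRes (M.placeOf ζ hζ) (M.O ζ).val (fun r => (M.mem_placeOf hζ _).mpr r.2)
  have hker : ∀ r ∈ maximalIdeal (M.O ζ), f r = 0 := by
    intro r hr
    rw [placeCodRes_apply, residue_eq_zero_iff]
    intro hu
    apply hr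
    obtain ⟨b, hb⟩ := isUnit_iff_exists_inv.mp hu
    have hb' : (r : F) * (b : F) = 1 := congrArg Subtype.val hb
    exact isUnit_iff_exists_inv.mpr ⟨⟨b, (M.mem_placeOf hζ _).mp b.2⟩, Subtype.ext hb'⟩
  let f' : ResidueField (M.O ζ) →ₐ[K] (M.placeOf ζ hζ).ResidueField :=
    Ideal.Quotient.liftₐ (maximalIdeal (M.O ζ)) f hker
  have hf' : Function.Surjective f' := by
    intro y
    obtain ⟨r, rfl⟩ := residue_surjective y
    exact ⟨residue _ ⟨r, (M.mem_placeOf hζ _).mp r.2⟩, rfl⟩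
  have h1 := (AlgEquiv.ofBijective f' ⟨f'.toRingHom.injective, hf'⟩).trdeg_eq
  rw [← h1, M.trdeg_residueField]
  unfold IsPrimeDivisor at hζ
  exact_mod_cast hζ

end AVModel

end Fermat.Agent.S26
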