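import Fermat.Agent.S26.Top.V1.Shear
import Fermat.Agent.S26.Top.V1.PlaceOf

/-! # S26 / V1-Cen : the support of `(η - α)^* D` consists of non-constant places with centre `ζ`.

`𝕃 = CF K F FC`, `Q : Place F 𝕃`, `Q_K = Q.restrictConst K`, `z = zOf η α = η_𝕃 - α_𝕃`.

* `isGeneric_red_bc_eta`: `Q` is trivial on `F`: `red_map_placeCod` + `isGeneric_map_eta`.
* `trdeg_fd_red_inr_le_one`, `trdeg_fd_red_inr_eq_zero`: if `Q` is non-constant (`traceFC Q = ⊤`), all `inr a ∈ O_Q`,
  `red Q_K (map inr β) = map (placeCodRes ..) β` (`red_map_placeCod`), so `fd ≤` the range of a field embedding of `FC`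
  (`fd_map_le`), of trdeg `1` (`FF1.trdeg_eq_one`).  If `Q = constPlace F c`, `traceFC_constPlace` says exactly
  `PlaceOver c Q_K inr`; `red_map_of_placeOver` gives `fd ≤` the range of an embedding of `κ(c) = K`
  (`bijective_algebraMap_residueField`), of trdeg `0`.
* `cen_eq_of_Dv_ne_zero`: `a := cen Q_K z`.  If `¬ O a ≤ O ζ` then `locEq ζ a = 1 = locEq ζ (ctr z)`
  (`locEq_eq_one_of_not_le`, `locEq_genPt`, `isGeneric_zOf_eta`) and `Dv = ord 1 = 0`.  So `O a ≤ O ζ`.
  `red η_𝕃 = red z + red α_𝕃` (`red_add`/`red_sub`), so by `fd_add_le`, `StepA.trdeg_mono`, `V1.trdeg_sup_le`, `trdeg_fd`,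
  `ctr_red`: `g ≤ dim a + trdeg (fd (red α_𝕃))`.  If `a ≠ ζ`, `dim a < dim ζ = g - 1` (`dim_lt_of_le_of_ne`): impossible.
  If `Q` is constant: `g ≤ dim a = g - 1`: impossible (`exists_eq_constPlace_or_isNonconst`). -/

set_option autoImplicit false

universe u

namespace Fermat.Agent.S26

open AlgebraicCurve IsLocalRing

variable {K : Type u} [Field K] [IsAlgClosed K] {F : Type u} [Field F] [Algebra K F] (M : AVModel K F)

namespace V1

omit [IsAlgClosed K] in
theorem isGeneric_red_bc_eta {𝕃 : Type u} [Field 𝕃] [Algebra K 𝕃] [Algebra F 𝕃] [IsScalarTower K F 𝕃]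
    (Q : Place F 𝕃) : M.IsGeneric (M.red (Q.restrictConst K) (M.bc F 𝕃 M.eta)) := by
  rw [AVModel.bc, M.red_map_placeCod (Q.restrictConst K) (IsScalarTower.toAlgHom K F 𝕃)
    (fun b => Q.algebraMap_mem' b)]
  exact M.isGeneric_map_eta _

omit [IsAlgClosed K] in
/-- the field of definition of the image of a point under a field embedding -/
theorem trdeg_fd_map_le {Ω Ω' : Type u} [Field Ω] [Algebra K Ω] [Field Ω'] [Algebra K Ω']
    (j : Ω →ₐ[K] Ω') (x : M.Pt Ω) : Algebra.trdeg K (M.fd (M.map j x)) ≤ Algebra.trdeg K Ω := by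
  refine (StepA.trdeg_mono (M.fd_map_le j x)).trans ?_
  exact (AlgEquiv.ofInjectiveField j).trdeg_eq.ge

variable {FC : Type u} [Field FC] [Algebra K FC] [FF1 K FC]

theorem trdeg_fd_red_inr_eq_zero (c : Place K FC) (β : M.Pt FC) :
    Algebra.trdeg K (M.fd (M.red ((constPlace F c).restrictConst K) (M.map (CF.inr K F FC) β))) = 0 := by
  have hover : PlaceOver c ((constPlace F c).restrictConst K) (CF.inr K F FC) := by
    intro a
    have h := traceFC_constPlace (Ω := F) c
    constructor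
    · intro ha
      rw [← h]
      exact ha
    · intro ha
      rw [← h] at ha
      exact ha
  rw [M.red_map_of_placeOver hover]
  have h1 := trdeg_fd_map_le M hover.resMap (M.red c β)
  have h2 : Algebra.trdeg K c.ResidueField = 0 := by
    rw [(resEquiv c).trdeg_eq]
    exact trdeg_eq_zero
  rw [h2] at h1
  exact le_antisymm h1 zero_le

theorem trdeg_fd_red_inr_le_one (Q : Place F (CF K F FC)) (β : M.Pt FC) :
    Algebra.trdeg K (M.fd (M.red (Q.restrictConst K) (M.map (CF.inr K F FC) β))) ≤ 1 := by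
  rcases exists_eq_constPlace_or_isNonconst Q with ⟨c, rfl⟩ | hQ
  · rw [trdeg_fd_red_inr_eq_zero]
    exact zero_le
  · have hmem : ∀ b : FC, CF.inr K F FC b ∈ (Q.restrictConst K).toValuationSubring := by
      intro b
      have : b ∈ traceFC Q := by rw [hQ]; trivial
      exact this
    rw [M.red_map_placeCod (Q.restrictConst K) (CF.inr K F FC) hmem]
    refine (trdeg_fd_map_le M _ β).trans ?_
    rw [FF1.trdeg_eq_one]

theorem cen_eq_of_Dv_ne_zero {ζ : M.X} (hζ : M.IsPrimeDivisor ζ) (α : M.Pt FC) (Q : Place F (CF K F FC))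
    (h : M.Dv ζ (M.zOf M.eta α) (Q.restrictConst K) ≠ 0) :
    M.cen (Q.restrictConst K) (M.zOf M.eta α) = ζ ∧ IsNonconst Q := by
  have hle : M.O (M.cen (Q.restrictConst K) (M.zOf M.eta α)) ≤ M.O ζ := by
    by_contra hn
    apply h
    rw [AVModel.Dv, M.locEq_eq_one_of_not_le ζ _ hn, isGeneric_zOf_eta M α, M.locEq_genPt hζ, div_one,
      M.ev_one]
    exact (Q.restrictConst K).ord_one
  have key : (M.g : Cardinal) ≤ M.dim (M.cen (Q.restrictConst K) (M.zOf M.eta α))
      + Algebra.trdeg K (M.fd (M.red (Q.restrictConst K) (M.map (CF.inr K F FC) α))) := by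
    have e : M.bc F (CF K F FC) M.eta = M.zOf M.eta α + M.map (CF.inr K F FC) α := by
      rw [AVModel.zOf]; abel
    have h1 := isGeneric_red_bc_eta M Q
    rw [M.isGeneric_iff_dim] at h1
    rw [← h1, ← M.trdeg_fd, e, M.red_add, ← M.ctr_red, ← M.trdeg_fd]
    exact (StepA.trdeg_mono (M.fd_add_le _ _)).trans (trdeg_sup_le _ _)
  unfold AVModel.IsPrimeDivisor at hζ
  have hcen : M.cen (Q.restrictConst K) (M.zOf M.eta α) = ζ := by
    by_contra hne
    have h1 := M.dim_lt_of_le_of_ne hle hne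
    have h2 := key.trans (add_le_add_right (trdeg_fd_red_inr_le_one M Q α) _)
    have h3 : M.g ≤ M.dim (M.cen (Q.restrictConst K) (M.zOf M.eta α)) + 1 := by exact_mod_cast h2
    omega
  refine ⟨hcen, ?_⟩
  rcases exists_eq_constPlace_or_isNonconst Q with ⟨c, rfl⟩ | hQ
  · exfalso
    rw [trdeg_fd_red_inr_eq_zero, add_zero, hcen] at key
    have h3 : M.g ≤ M.dim ζ := by exact_mod_cast key
    omega
  · exact hQ

end V1

end Fermat.Agent.S26
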