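import Fermat.Agent.S26.Curve.Spec
import Fermat.Agent.S26.Curve.Gauss
import Fermat.Agent.S26.Top.V1.Lift

/-! # S26 / V1-GaussU : residue field, points and UNIQUENESS of the Gauss place.

TASK S26/V1-GaussU: fill the sorries.  `G = gauss v FC`, `ρ = gaussRed v FC : O_G → κ(C) = CF K κ(v) FC`.
Use the fields of `gaussData v FC` and `Curve/Gauss.lean` (valid for ANY Gauss datum; instantiate the variables
`G ρ ord_inl inr_mem ρ_inr ρ_inl` with the fields of `gaussData v FC`): `Gauss.j`, `Gauss.r`, `Gauss.j_mem`,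
`Gauss.ρ_j`, `Gauss.ρ_eq_zero_of_ord_pos`, `Gauss.r_eq`, `exists_fraction_of_gauss`.

* `gaussRed_eq_zero_iff'`: `ρ` is a surjection of the local ring `O_G` onto a field, so its kernel is the maximal ideal.
* `eq_gauss_of`: by `Fermat.Agent.S24.FF.eq_of_le` it suffices to show `O_G ≤ O_Q`.  Let `f ∈ O_G`, `f = j a / j b` with
  `ord_G (j b) = 0` (`exists_fraction_of_gauss`), so `ρ (j b) = r b ≠ 0`, so `(res ⊗ id) b ≠ 0` in `κ ⊗ FC` (`Gauss.r_eq`).
  `j t ∈ O_Q` for all `t` (induction on `t`) and `residue_Q (j t) = productMap h.resMap (..) ((res ⊗ id) t)` (induction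
  on `t`).  By `hinj`, `residue_Q (j b) ≠ 0`, so `j b` is a unit of `O_Q` and `f ∈ O_Q`. -/

set_option autoImplicit false

universe u

namespace Fermat.Agent.S26

open AlgebraicCurve IsLocalRing TensorProduct

variable {K : Type u} [Field K] [IsAlgClosed K]
variable {Φ : Type u} [Field Φ] [Algebra K Φ] (v : Place K Φ) (FC : Type u) [Field FC] [Algebra K FC]

namespace V1

theorem placeOver_gauss : PlaceOver v (gauss v FC) (CF.inl K Φ FC) := by
  intro a
  change algebraMap Φ (CF K Φ FC) a ∈ (gauss v FC).toValuationSubring ↔ _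
  rw [← S24.FF.ord_nonneg_iff, ← S24.FF.ord_nonneg_iff, (gaussData v FC).ord_inl]

theorem inr_mem_gauss (a : FC) : CF.inr K Φ FC a ∈ (gauss v FC).toValuationSubring :=
  (gaussData v FC).inr_mem a

theorem isUnit_of_isUnit_gaussRed (f : (gauss v FC).toValuationSubring) (h : IsUnit (gaussRed v FC f)) :
    IsUnit f :=
  (IsLocalHom.of_surjective (gaussRed v FC).toRingHom (gaussData v FC).ρ_surjective).map_nonunit f h

theorem gaussRed_eq_zero_iff' (f : (gauss v FC).toValuationSubring) : gaussRed v FC f = 0 ↔ ¬ IsUnit f := by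
  constructor
  · intro h0 hu
    exact (hu.map (gaussRed v FC)).ne_zero h0
  · intro hu
    by_contra h0
    exact hu (isUnit_of_isUnit_gaussRed v FC f (isUnit_iff_ne_zero.mpr h0))

theorem exists_gaussResEquiv : ∃ e : (gauss v FC).ResidueField ≃ₐ[K] CF K v.ResidueField FC,
    ∀ f, e (residue _ f) = gaussRed v FC f := by
  have hker : ∀ f ∈ maximalIdeal (gauss v FC).toValuationSubring, gaussRed v FC f = 0 :=
    fun f hf => (gaussRed_eq_zero_iff' v FC f).mpr hf
  let e : (gauss v FC).ResidueField →ₐ[K] CF K v.ResidueField FC :=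
    Ideal.Quotient.liftₐ (maximalIdeal (gauss v FC).toValuationSubring) (gaussRed v FC) hker
  have he : Function.Surjective e := by
    intro y
    obtain ⟨f, rfl⟩ := (gaussData v FC).ρ_surjective y
    exact ⟨residue _ f, rfl⟩
  exact ⟨AlgEquiv.ofBijective e ⟨e.toRingHom.injective, he⟩, fun f => rfl⟩

/-- `κ(G) ≃ κ(v)(C)` -/
noncomputable def gaussResEquiv : (gauss v FC).ResidueField ≃ₐ[K] CF K v.ResidueField FC :=
  (exists_gaussResEquiv v FC).choose

theorem gaussResEquiv_residue (f : (gauss v FC).toValuationSubring) :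
    gaussResEquiv v FC (residue _ f) = gaussRed v FC f := (exists_gaussResEquiv v FC).choose_spec f

variable {v FC}

/-- UNIQUENESS of the Gauss place. -/
theorem eq_gauss_of (Q : Place K (CF K Φ FC)) (h : PlaceOver v Q (CF.inl K Φ FC))
    (hr : ∀ a : FC, CF.inr K Φ FC a ∈ Q.toValuationSubring)
    (hinj : Function.Injective
      (Algebra.TensorProduct.productMap h.resMap (placeCodRes Q (CF.inr K Φ FC) hr))) :
    Q = gauss v FC := by
  symm
  apply S24.FF.eq_of_le
  have hinl : ∀ ω : v.toValuationSubring, algebraMap Φ (CF K Φ FC) ω ∈ Q.toValuationSubring :=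
    fun ω => (h ω).2 ω.2
  have hj : ∀ t, Gauss.j v FC t ∈ Q.toValuationSubring := by
    intro t
    induction t using TensorProduct.induction_on with
    | zero => simp
    | tmul ω a =>
      rw [Gauss.j_tmul]
      exact mul_mem (hinl ω) (hr a)
    | add x y hx hy => rw [map_add]; exact add_mem hx hy
  have hres : ∀ t, residue Q.toValuationSubring ⟨_, hj t⟩ =
      Algebra.TensorProduct.productMap h.resMap (placeCodRes Q (CF.inr K Φ FC) hr)
        (Algebra.TensorProduct.map (IsScalarTower.toAlgHom K v.toValuationSubring v.ResidueField)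
          (AlgHom.id K FC) t) := by
    intro t
    induction t using TensorProduct.induction_on with
    | zero =>
      have : (⟨_, hj 0⟩ : Q.toValuationSubring) = 0 := Subtype.ext (map_zero _)
      rw [this, map_zero, map_zero, map_zero]
    | tmul ω a =>
      have : (⟨_, hj (ω ⊗ₜ a)⟩ : Q.toValuationSubring) = h.ringMap ω * ⟨_, hr a⟩ :=
        Subtype.ext (Gauss.j_tmul v FC ω a)
      rw [this, map_mul, Algebra.TensorProduct.map_tmul, Algebra.TensorProduct.productMap_apply_tmul,
        placeCodRes_apply]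
      congr 1
      exact (h.resMap_residue ω).symm
    | add x y hx hy =>
      have : (⟨_, hj (x + y)⟩ : Q.toValuationSubring) = ⟨_, hj x⟩ + ⟨_, hj y⟩ :=
        Subtype.ext (map_add _ _ _)
      rw [this, map_add, hx, hy, map_add, map_add]
  intro f hf
  obtain ⟨a, b, hb, hb0, rfl⟩ := exists_fraction_of_gauss v FC (gauss v FC) (gaussRed v FC)
    (gaussData v FC).ord_inl (gaussData v FC).inr_mem (gaussData v FC).ρ_inr (gaussData v FC).ρ_inl f hf
  have hbG := Gauss.j_mem v FC (gauss v FC) (gaussData v FC).ord_inl (gaussData v FC).inr_mem b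
  have hu : IsUnit (⟨_, hbG⟩ : (gauss v FC).toValuationSubring) := by
    refine isUnit_iff_exists_inv.mpr ⟨⟨(Gauss.j v FC b)⁻¹, ?_⟩, Subtype.ext (mul_inv_cancel₀ hb0)⟩
    apply S24.FF.mem_of_ord_nonneg
    rw [Place.ord_inv, hb]; simp
  have h1 : Gauss.r v FC b ≠ 0 := by
    rw [← Gauss.ρ_j v FC (gauss v FC) (gaussRed v FC) (gaussData v FC).ord_inl (gaussData v FC).inr_mem
      (gaussData v FC).ρ_inr (gaussData v FC).ρ_inl b]
    exact (hu.map (gaussRed v FC)).ne_zero
  have h2 : Algebra.TensorProduct.map (IsScalarTower.toAlgHom K v.toValuationSubring v.ResidueField)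
      (AlgHom.id K FC) b ≠ 0 := by
    intro h0
    rw [Gauss.r_eq, h0, map_zero] at h1
    exact h1 rfl
  have h3 : residue Q.toValuationSubring ⟨_, hj b⟩ ≠ 0 := by
    rw [hres b]
    exact (map_ne_zero_iff _ hinj).mpr h2
  have h4 : IsUnit (⟨_, hj b⟩ : Q.toValuationSubring) := by
    by_contra hnu
    exact h3 ((residue_eq_zero_iff _).mpr hnu)
  obtain ⟨c, hc⟩ := isUnit_iff_exists_inv.mp h4
  have hc' : Gauss.j v FC b * (c : CF K Φ FC) = 1 := congrArg Subtype.val hc
  rw [div_eq_mul_inv, ← eq_inv_of_mul_eq_one_right hc']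
  exact mul_mem (hj a) c.2

end V1

namespace AVModel

variable {F : Type u} [Field F] [Algebra K F] (M : AVModel K F)

theorem ctr_map_gaussRed (y : M.Pt (gauss v FC).toValuationSubring) :
    M.ctr (M.map (gaussRed v FC) y) = M.ctr y := by
  exact M.ctr_map_of_isLocalHom _ (V1.isUnit_of_isUnit_gaussRed v FC) y

theorem map_gaussRed_lift_bc (x : M.Pt Φ) :
    M.map (gaussRed v FC) (M.lift (gauss v FC) (M.bc Φ (CF K Φ FC) x))
      = M.bc v.ResidueField (CF K v.ResidueField FC) (M.red v x) := by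
  have h1 := M.lift_map_of_placeOver (V1.placeOver_gauss v FC) x
  change M.map (gaussRed v FC) (M.lift (gauss v FC) (M.map (CF.inl K Φ FC) x)) = _
  rw [h1, red, bc, bc, ← M.map_comp, ← M.map_comp]
  congr 1
  exact AlgHom.ext fun ω => (gaussData v FC).ρ_inl ω _

theorem map_gaussRed_lift_inr (α : M.Pt FC) :
    M.map (gaussRed v FC) (M.lift (gauss v FC) (M.map (CF.inr K Φ FC) α))
      = M.map (CF.inr K v.ResidueField FC) α := by
  rw [M.lift_map_placeCod (gauss v FC) (CF.inr K Φ FC) (gaussData v FC).inr_mem, ← M.map_comp]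
  congr 1
  exact AlgHom.ext fun a => (gaussData v FC).ρ_inr a

theorem cen_gauss_bc (x : M.Pt Φ) : M.cen (gauss v FC) (M.bc Φ (CF K Φ FC) x) = M.cen v x := by
  exact M.cen_map_of_placeOver (V1.placeOver_gauss v FC) x

end AVModel

end Fermat.Agent.S26
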