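import Fermat.Agent.S26.Top.V1.Cen
import Fermat.Agent.S26.Top.V1.GaussU
import Fermat.Agent.S26.Model.DvTransport

/-! # S26 / V1-Class : a non-constant place of `F(C)/F` at which `η - α` has centre `ζ` is the sheared Gauss place.

TASK S26/V1-Class: fill the sorry.  `𝕃 = CF K F FC`, `v = placeOf ζ`, `κ = κ(v)`, `Q_K = Q.restrictConst K`,
`Q' := placeMap θ.symm Q_K` (so `placeMap θ Q' = Q_K`, `placeMap_placeMap_symm`), `η_𝕃 = bc η`, `α_𝕃 = map inr α`,
`x := η_𝕃 + α_𝕃`.  We show `Q' = gauss v FC` with `V1.eq_gauss_of`.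

1. `cen Q' η_𝕃 = cen Q_K z = ζ` (`cen_placeMap` applied to `θ`, `Q'`, and `hθ.map_eta`).  `η_𝕃` is generic with
   `emb η_𝕃 = inl` (`isGeneric_map_eta`, `emb_map_eta`).  So `h : PlaceOver v Q' inl` by `placeOver_of_cen` + `mem_placeOf`.
2. `inr a ∈ O_Q'` since `θ (inr a) = inr a ∈ O_Q` (`hθ.apply_inr`, `IsNonconst`; `mem_placeMap`).
3. injectivity of `productMap h.resMap (placeCodRes Q' inr _) : κ ⊗ FC → κ(Q')` by `V1.productMap_injective_of_trdeg`:
   `trdeg κ + trdeg FC = (g - 1) + 1 = g` (`trdeg_residueField_placeOf`, `FF1.trdeg_eq_one`).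
   `red Q' x = red Q' η_𝕃 + red Q' α_𝕃 = map h.resMap (red v η) + map (placeCodRes ..) α` (`red_add`,
   `red_map_of_placeOver`, `red_map_placeCod`), so `fd (red Q' x) ≤ range h.resMap ⊔ range (placeCodRes ..)`
   (`fd_add_le`, `fd_map_le`).  `red Q' x` is generic: `cen Q' x = cen Q_K (map θ x) = cen Q_K η_𝕃` (`cen_placeMap`,
   `hθ.map_eta_add`) `= genPt` (`V1.isGeneric_red_bc_eta`, `isGeneric_red_iff`).  So `g = trdeg (fd (red Q' x)) ≤ trdeg (sup)`
   (`trdeg_fd`, `dim_genPt`, `StepA.trdeg_mono`). -/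

set_option autoImplicit false

universe u

namespace Fermat.Agent.S26

open AlgebraicCurve IsLocalRing

variable {K : Type u} [Field K] [IsAlgClosed K] {F : Type u} [Field F] [Algebra K F] (M : AVModel K F)

namespace V1

variable {FC : Type u} [Field FC] [Algebra K FC] [FF1 K FC]

theorem restrictConst_eq_placeMap_gauss {ζ : M.X} (hζ : M.IsPrimeDivisor ζ) {α : M.Pt FC}
    {θ : CF K F FC ≃ₐ[K] CF K F FC} (hθ : IsShear M α θ) (Q : Place F (CF K F FC))
    (h1 : M.cen (Q.restrictConst K) (M.zOf M.eta α) = ζ) (h2 : IsNonconst Q) :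
    Q.restrictConst K = placeMap θ (gauss (M.placeOf ζ hζ) FC) := by
  obtain ⟨QK, hQK⟩ : ∃ QK : Place K (CF K F FC), QK = Q.restrictConst K := ⟨_, rfl⟩
  obtain ⟨Q', hQ'⟩ : ∃ Q' : Place K (CF K F FC), Q' = placeMap θ.symm QK := ⟨_, rfl⟩
  have hQQ' : placeMap θ Q' = QK := by rw [hQ']; exact placeMap_placeMap_symm θ QK
  have hgen : M.IsGeneric (M.map (CF.inl K F FC) M.eta) := M.isGeneric_map_eta _
  have hemb : M.emb (M.map (CF.inl K F FC) M.eta) hgen = CF.inl K F FC := M.emb_map_eta _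
  have hbc : M.bc F (CF K F FC) M.eta = M.map (CF.inl K F FC) M.eta := rfl
  -- Step 1
  have hcen : M.cen Q' (M.map (CF.inl K F FC) M.eta) = ζ := by
    have h := M.cen_placeMap θ (M.map (CF.inl K F FC) M.eta) Q'
    rw [hQQ', ← hbc, hθ.map_eta, hQK, h1] at h
    exact h.symm
  have hover : PlaceOver (M.placeOf ζ hζ) Q' (CF.inl K F FC) := by
    have h := M.placeOver_of_cen Q' (M.map (CF.inl K F FC) M.eta) hgen (M.placeOf ζ hζ)
      (fun r => by rw [hcen]; exact M.mem_placeOf hζ r)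
    rwa [hemb] at h
  -- Step 2
  have hr : ∀ a : FC, CF.inr K F FC a ∈ Q'.toValuationSubring := by
    intro a
    rw [hQ', mem_placeMap, AlgEquiv.symm_symm, hθ.apply_inr, hQK]
    have h : a ∈ traceFC Q := by
      rw [show traceFC Q = ⊤ from h2]; exact ValuationSubring.mem_top a
    exact h
  -- Step 3
  have htr : Algebra.trdeg K (M.placeOf ζ hζ).ResidueField + Algebra.trdeg K FC = (M.g : Cardinal) := by
    rw [FF1.trdeg_eq_one (Ω := K) (𝕃 := FC)]
    exact M.trdeg_residueField_placeOf hζ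
  have hxgen : M.IsGeneric (M.red Q' (M.map (CF.inl K F FC) M.eta + M.map (CF.inr K F FC) α)) := by
    rw [M.isGeneric_red_iff]
    have h := M.cen_placeMap θ (M.map (CF.inl K F FC) M.eta + M.map (CF.inr K F FC) α) Q'
    rw [hQQ', ← hbc, hθ.map_eta_add, hQK] at h
    rw [← hbc, ← h]
    exact (M.isGeneric_red_iff _ _).1 (V1.isGeneric_red_bc_eta M Q)
  have hle : M.fd (M.red Q' (M.map (CF.inl K F FC) M.eta + M.map (CF.inr K F FC) α))
      ≤ hover.resMap.fieldRange ⊔ (placeCodRes Q' (CF.inr K F FC) hr).fieldRange := by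
    rw [M.red_add, M.red_map_of_placeOver hover, M.red_map_placeCod Q' (CF.inr K F FC) hr]
    exact (M.fd_add_le _ _).trans (sup_le_sup (M.fd_map_le _ _) (M.fd_map_le _ _))
  have hinj : Function.Injective
      (Algebra.TensorProduct.productMap hover.resMap (placeCodRes Q' (CF.inr K F FC) hr)) := by
    apply V1.productMap_injective_of_trdeg
    · rw [htr]; exact Cardinal.natCast_lt_aleph0
    · rw [htr]
      refine le_trans (le_of_eq ?_) (StepA.trdeg_mono hle)
      rw [M.trdeg_fd, show M.ctr _ = M.genPt from hxgen, M.dim_genPt]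
  rw [← hQK, ← hQQ', V1.eq_gauss_of Q' hover hr hinj]

end V1

end Fermat.Agent.S26
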