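import Fermat.Agent.S26.Top.V1.Shear
import Fermat.Agent.S26.Top.V1.PlaceOf
import Fermat.Agent.S26.Top.V1.GaussU
import Fermat.Agent.S26.Model.DvTransport

/-! # S26 / V1-Exist : the sheared Gauss place `G' = θ(G)`: when is it trivial on `F`, its degree, its multiplicity.

`v = placeOf ζ`, `G = gauss v FC`, `ρ = gaussRed v FC`, `G' = placeMap θ G`,
`η_𝕃 = bc η`, `α_𝕃 = map inr α`, `x := η_𝕃 + α_𝕃` (generic: `isGeneric_eta_add`), `w̄ = wbar`.

* `map_gaussRed_lift`: `lift_add`, `map_add`, `map_gaussRed_lift_bc`, `map_gaussRed_lift_inr`.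
* `isGeneric_wbar_iff`: `ctr w̄ = ctr (lift G x) = cen G x` (`ctr_map_gaussRed`); `cen G x = genPt ↔ ∀ r, ev x r ∈ O_G`
  (`cen_eq_genPt_iff`) `↔ ∀ r, θ (ev x r) = inl r ∈ O_G'` (`hθ.apply_ev`, `Transport.apply_mem_vmap`).
* `deg_extendConst`: `Algebra.finrank_eq_of_equiv_equiv` with `F ≃+* (emb w̄).fieldRange` (`AlgEquiv.ofInjectiveField` or
  `RingEquiv.ofBijective`) and `κ(G') ≃+* κ(G) ≃+* CF K κ(v) FC` (`(placeResEquiv θ G).symm`, `gaussResEquiv`).  Commutation: for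
  `r : F`, `algebraMap F κ(G') r = residue ⟨inl r, _⟩`, `inl r = θ (ev x r)`, `ev x r = coe (ev (lift G x) r)` (`ev_lift`,
  the centre is `genPt`, `O_genPt`), `ρ (ev (lift G x) r) = ev (map ρ (lift G x)) r = ev w̄ r` (`ev_map`).
* `Dv_placeMap_gauss`: `Dv ζ z G' = Dv ζ η_𝕃 G` (`Dv_placeMap`, `hθ.map_eta`) `= ord_G (ev η_𝕃 (locEq ζ (cen G η_𝕃) / locEq ζ (ctr η_𝕃)))`;
  `cen G η_𝕃 = cen v η = ζ` (`cen_gauss_bc`, `cen_placeOf_eta`), `ctr η_𝕃 = genPt` (`isGeneric_map_eta`), `locEq_genPt`,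
  `ev η_𝕃 s = inl s` (`ev_map`, `ev_eta`), `(gaussData v FC).ord_inl`, `ord_placeOf_locEq`. -/

set_option autoImplicit false

universe u

namespace Fermat.Agent.S26

open AlgebraicCurve IsLocalRing

/-- a place over `K` whose valuation ring contains `Ω` is a place over `Ω` -/
def extendConst {K Ω 𝕃 : Type*} [Field K] [Field Ω] [Field 𝕃] [Algebra K 𝕃] [Algebra Ω 𝕃]
    (G : Place K 𝕃) (h : ∀ ω : Ω, algebraMap Ω 𝕃 ω ∈ G.toValuationSubring) : Place Ω 𝕃 where
  toValuationSubring := G.toValuationSubring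
  algebraMap_mem' := h
  ne_top' := G.ne_top'
  isPrincipalIdealRing' := G.isPrincipalIdealRing'

theorem restrictConst_extendConst {K Ω 𝕃 : Type*} [Field K] [Field Ω] [Field 𝕃] [Algebra K 𝕃] [Algebra Ω 𝕃]
    [Algebra K Ω] [IsScalarTower K Ω 𝕃]
    (G : Place K 𝕃) (h : ∀ ω : Ω, algebraMap Ω 𝕃 ω ∈ G.toValuationSubring) :
    (extendConst G h).restrictConst K = G := rfl

variable {K : Type u} [Field K] [IsAlgClosed K] {F : Type u} [Field F] [Algebra K F] (M : AVModel K F)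

namespace V1

variable {FC : Type u} [Field FC] [Algebra K FC]

/-- the point `ζ + α` of `A(κ(ζ)(C))` -/
noncomputable def wbar {ζ : M.X} (hζ : M.IsPrimeDivisor ζ) (α : M.Pt FC) :
    M.Pt (CF K (M.placeOf ζ hζ).ResidueField FC) :=
  M.bc (M.placeOf ζ hζ).ResidueField (CF K (M.placeOf ζ hζ).ResidueField FC) (M.red (M.placeOf ζ hζ) M.eta)
    + M.map (CF.inr K (M.placeOf ζ hζ).ResidueField FC) α

theorem map_gaussRed_lift {ζ : M.X} (hζ : M.IsPrimeDivisor ζ) (α : M.Pt FC) :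
    M.map (gaussRed (M.placeOf ζ hζ) FC) (M.lift (gauss (M.placeOf ζ hζ) FC)
      (M.bc F (CF K F FC) M.eta + M.map (CF.inr K F FC) α)) = wbar M hζ α := by
  rw [M.lift_add, M.map_add, M.map_gaussRed_lift_bc (v := M.placeOf ζ hζ) (FC := FC),
    M.map_gaussRed_lift_inr (v := M.placeOf ζ hζ) (FC := FC)]
  rfl

theorem ctr_wbar {ζ : M.X} (hζ : M.IsPrimeDivisor ζ) (α : M.Pt FC) :
    M.ctr (wbar M hζ α) = M.cen (gauss (M.placeOf ζ hζ) FC)
      (M.bc F (CF K F FC) M.eta + M.map (CF.inr K F FC) α) := by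
  rw [← map_gaussRed_lift, M.ctr_map_gaussRed (v := M.placeOf ζ hζ) (FC := FC)]
  rfl

variable {α : M.Pt FC} {θ : CF K F FC ≃ₐ[K] CF K F FC}

theorem isGeneric_wbar_iff (hθ : IsShear M α θ) {ζ : M.X} (hζ : M.IsPrimeDivisor ζ) :
    M.IsGeneric (wbar M hζ α) ↔
      ∀ r : F, algebraMap F (CF K F FC) r ∈ (placeMap θ (gauss (M.placeOf ζ hζ) FC)).toValuationSubring := by
  rw [AVModel.IsGeneric, ctr_wbar, M.cen_eq_genPt_iff _ _ (M.isGeneric_eta_add α)]
  refine forall_congr' fun r => ?_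
  rw [← hθ.apply_ev r]
  exact (Transport.apply_mem_vmap θ _ _).symm

theorem deg_extendConst (hθ : IsShear M α θ) {ζ : M.X} (hζ : M.IsPrimeDivisor ζ) (hgen : M.IsGeneric (wbar M hζ α))
    (hmem : ∀ r : F, algebraMap F (CF K F FC) r ∈ (placeMap θ (gauss (M.placeOf ζ hζ) FC)).toValuationSubring) :
    (extendConst (placeMap θ (gauss (M.placeOf ζ hζ) FC)) hmem).deg =
      Module.finrank (M.emb (wbar M hζ α) hgen).fieldRange (CF K (M.placeOf ζ hζ).ResidueField FC) := by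
  set G := gauss (M.placeOf ζ hζ) FC with hG
  set x := M.bc F (CF K F FC) M.eta + M.map (CF.inr K F FC) α with hx
  have hcen : M.cen G x = M.genPt := by rw [← ctr_wbar]; exact hgen
  have hO : ∀ r : F, r ∈ M.O (M.cen G x) := fun r => by rw [hcen, M.O_genPt]; trivial
  let i : F ≃+* (M.emb (wbar M hζ α) hgen).fieldRange :=
    (AlgEquiv.ofInjectiveField (M.emb (wbar M hζ α) hgen)).toRingEquiv
  let j : (extendConst (placeMap θ G) hmem).ResidueField ≃+* CF K (M.placeOf ζ hζ).ResidueField FC :=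
    ((placeResEquiv θ G).symm).trans (gaussResEquiv (M.placeOf ζ hζ) FC).toRingEquiv
  unfold Place.deg
  refine Algebra.finrank_eq_of_equiv_equiv i j ?_
  ext r
  show M.ev (wbar M hζ α) r = gaussResEquiv (M.placeOf ζ hζ) FC ((placeResEquiv θ G).symm
    (residue (placeMap θ G).toValuationSubring ⟨algebraMap F (CF K F FC) r, hmem r⟩))
  have e1 : (⟨algebraMap F (CF K F FC) r, hmem r⟩ : (placeMap θ G).toValuationSubring) =
      placeRingEquiv θ G (M.ev (M.lift G x) r) := by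
    apply Subtype.ext
    show _ = θ ((M.ev (M.lift G x) r : G.toValuationSubring) : CF K F FC)
    rw [M.ev_lift G x r (hO r), hθ.apply_ev]
  rw [e1, ← placeResEquiv_residue, RingEquiv.symm_apply_apply, gaussResEquiv_residue,
    ← M.ev_map _ _ r (hO r), map_gaussRed_lift]

theorem Dv_placeMap_gauss (hθ : IsShear M α θ) {ζ : M.X} (hζ : M.IsPrimeDivisor ζ) :
    M.Dv ζ (M.zOf M.eta α) (placeMap θ (gauss (M.placeOf ζ hζ) FC)) = 1 := by
  rw [← hθ.map_eta, M.Dv_placeMap, AVModel.Dv, M.cen_gauss_bc (v := M.placeOf ζ hζ) (FC := FC),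
    M.cen_placeOf_eta hζ,
    (M.isGeneric_map_eta _ : M.ctr _ = M.genPt), M.locEq_genPt hζ, div_one,
    M.ev_map _ _ _ (M.mem_O_ctr_eta _), M.ev_eta]
  exact ((gaussData (M.placeOf ζ hζ) FC).ord_inl _).trans (M.ord_placeOf_locEq hζ)

end V1

end Fermat.Agent.S26
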