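import Fermat.Agent.S26.Curve.CFExtra
import Fermat.Agent.S26.Alg.Trdeg
import Fermat.Agent.S26.Lam.Generic

/-! # S26 / V1-Field : two lemmas on transcendence degrees.

* `trdeg_sup_le`: take transcendence bases `s` of `A/K`, `t` of `B/K` (as subsets of `E`); every element of `A`
  and of `B` is algebraic over `K(s ∪ t)`, hence so is every element of `A ⊔ B` (`StepA.isAlgebraic_of_mem_sup`);
  conclude with `trdeg_le_cardinalMk` (or: `A ⊔ B` is algebraic over the field generated by `s ∪ t`).
* `productMap_injective_of_trdeg`: `T = κ ⊗[K] FC` is a domain (`isDomain_tensorProduct`), `trdeg K T =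
  trdeg K (CF K κ FC) = trdeg κ + trdeg FC` (`trdeg_CF`; `CF` is algebraic over `T`, being its fraction field).
  The kernel `p` of the product map is prime; `T ⧸ p ≃` the range `R ⊆ E`, whose fraction field is
  `i(κ) ⊔ j(FC)`, so `trdeg (T ⧸ p) = trdeg (i(κ) ⊔ j(FC)) ≥ trdeg T`; by `trdeg_quotient_lt`, `p = ⊥`. -/

set_option autoImplicit false

universe u

namespace Fermat.Agent.S26

namespace V1

open scoped IntermediateField.algebraAdjoinAdjoin

theorem trdeg_sup_le {K E : Type u} [Field K] [Field E] [Algebra K E] (A B : IntermediateField K E) :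
    Algebra.trdeg K ↥(A ⊔ B) ≤ Algebra.trdeg K A + Algebra.trdeg K B := by
  have hA : A ≤ A ⊔ B := le_sup_left
  have hB : B ≤ A ⊔ B := le_sup_right
  have htop : IntermediateField.restrict hA ⊔ IntermediateField.restrict hB = ⊤ := by
    apply IntermediateField.lift_injective
    rw [IntermediateField.lift_sup, IntermediateField.lift_restrict, IntermediateField.lift_restrict,
      IntermediateField.lift_top]
  have h := trdeg_le_add_of_sup_eq_top _ _ htop
  rwa [← (IntermediateField.restrictAlgEquiv hA).trdeg_eq,
    ← (IntermediateField.restrictAlgEquiv hB).trdeg_eq] at h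

/-- the field generated by `S` has the same transcendence degree as the algebra generated by `S` -/
theorem trdeg_adjoin_eq {K E : Type u} [Field K] [Field E] [Algebra K E] (S : Set E) :
    Algebra.trdeg K (IntermediateField.adjoin K S) = Algebra.trdeg K (Algebra.adjoin K S) := by
  have : FaithfulSMul K (Algebra.adjoin K S) :=
    (faithfulSMul_iff_algebraMap_injective K _).mpr (algebraMap K (Algebra.adjoin K S)).injective
  have h1 := trdeg_add_eq K (Algebra.adjoin K S) (A := IntermediateField.adjoin K S)
  have h0 : Algebra.trdeg (Algebra.adjoin K S) (IntermediateField.adjoin K S) = 0 := trdeg_eq_zero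
  rw [h0, add_zero] at h1
  exact h1.symm

theorem productMap_injective_of_trdeg {K κ FC E : Type u} [Field K] [IsAlgClosed K] [Field κ] [Algebra K κ]
    [Field FC] [Algebra K FC] [Field E] [Algebra K E] (i : κ →ₐ[K] E) (j : FC →ₐ[K] E)
    (hfin : Algebra.trdeg K κ + Algebra.trdeg K FC < Cardinal.aleph0)
    (h : Algebra.trdeg K κ + Algebra.trdeg K FC ≤ Algebra.trdeg K ↥(i.fieldRange ⊔ j.fieldRange)) :
    Function.Injective (Algebra.TensorProduct.productMap i j) := by
  set φ := Algebra.TensorProduct.productMap i j with hφ
  rw [← AlgHom.coe_toRingHom, RingHom.injective_iff_ker_eq_bot]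
  by_contra hne
  have hT : Algebra.trdeg K (TensorProduct K κ FC) ≤ Algebra.trdeg K κ + Algebra.trdeg K FC := by
    rw [← trdeg_CF]
    exact trdeg_le_of_injective ((CF.ofTensor K κ FC).restrictScalars K) CF.ofTensor_injective
  have hprime : (RingHom.ker φ.toRingHom).IsPrime := RingHom.ker_isPrime _
  have h1 := trdeg_quotient_lt (hT.trans_lt hfin) (RingHom.ker φ.toRingHom) hne
  have h2 : Algebra.trdeg K (TensorProduct K κ FC ⧸ RingHom.ker φ.toRingHom) = Algebra.trdeg K φ.range :=
    (Ideal.quotientKerEquivRange φ).trdeg_eq
  let S : Set E := Set.range i ∪ Set.range j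
  have h3 : φ.range = Algebra.adjoin K S := by
    rw [hφ, Algebra.TensorProduct.productMap_range, Algebra.adjoin_union]
    congr 1
    · exact (Algebra.adjoin_eq i.range).symm
    · exact (Algebra.adjoin_eq j.range).symm
  have h4 : i.fieldRange ⊔ j.fieldRange = IntermediateField.adjoin K S := by
    rw [IntermediateField.adjoin_union]
    congr 1
    · exact (IntermediateField.adjoin_self K i.fieldRange).symm
    · exact (IntermediateField.adjoin_self K j.fieldRange).symm
  rw [h2, h3, ← trdeg_adjoin_eq, ← h4] at h1
  exact absurd (h1.trans_le hT) (not_lt.mpr h)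

end V1

end Fermat.Agent.S26
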