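import Fermat.Agent.S26.Top.V1.Class
import Fermat.Agent.S26.Top.V1.Exist

/-! # S26 / V1 : assembly: `q_D(α) = [κ(ζ)(C) : K(ζ + α)]` (or `0`). -/

set_option autoImplicit false

universe u

namespace Fermat.Agent.S26

open AlgebraicCurve IsLocalRing

variable {K : Type u} [Field K] [IsAlgClosed K] {F : Type u} [Field F] [Algebra K F] (M : AVModel K F)

namespace V1

variable {FC : Type u} [Field FC] [Algebra K FC] [FF1 K FC]

theorem restrictConst_injective {K Ω 𝕃 : Type*} [Field K] [Field Ω] [Field 𝕃] [Algebra K 𝕃] [Algebra Ω 𝕃]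
    [Algebra K Ω] [IsScalarTower K Ω 𝕃] {Q Q' : Place Ω 𝕃} (h : Q.restrictConst K = Q'.restrictConst K) :
    Q = Q' :=
  Place.ext (congrArg (fun P : Place K 𝕃 => P.toValuationSubring) h)

open Classical in
theorem qD_eq {ζ : M.X} (hζ : M.IsPrimeDivisor ζ) (α : M.Pt FC) :
    M.qD ζ α = if h : M.IsGeneric (wbar M hζ α) then
      (Module.finrank (M.emb (wbar M hζ α) h).fieldRange (CF K (M.placeOf ζ hζ).ResidueField FC) : ℤ) else 0 := by
  obtain ⟨θ, hθ⟩ := exists_shear M α
  have key : ∀ Q : Place F (CF K F FC), M.Dv ζ (M.zOf M.eta α) (Q.restrictConst K) ≠ 0 →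
      Q.restrictConst K = placeMap θ (gauss (M.placeOf ζ hζ) FC) := fun Q hQ =>
    restrictConst_eq_placeMap_gauss M hζ hθ Q (cen_eq_of_Dv_ne_zero M hζ α Q hQ).1
      (cen_eq_of_Dv_ne_zero M hζ α Q hQ).2
  unfold AVModel.qD AVModel.degDv
  by_cases hgen : M.IsGeneric (wbar M hζ α)
  · rw [dif_pos hgen]
    have hmem := (isGeneric_wbar_iff M hθ hζ).1 hgen
    set Q₀ := extendConst (placeMap θ (gauss (M.placeOf ζ hζ) FC)) hmem with hQ₀
    have h1 : M.divOf (Ω := F) ζ (M.zOf M.eta α) = Finsupp.single Q₀ 1 := by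
      ext Q
      rw [AVModel.divOf_apply]
      by_cases hQ : Q = Q₀
      · subst hQ
        rw [Finsupp.single_eq_same]
        exact Dv_placeMap_gauss M hθ hζ
      · rw [Finsupp.single_eq_of_ne hQ]
        by_contra h0
        exact hQ (restrictConst_injective (K := K) (key Q h0))
    rw [h1, Divisor.degree_single, one_mul, hQ₀, deg_extendConst M hθ hζ hgen hmem]
  · rw [dif_neg hgen]
    have h1 : M.divOf (Ω := F) ζ (M.zOf M.eta α) = 0 := by
      ext Q
      rw [AVModel.divOf_apply, Finsupp.coe_zero, Pi.zero_apply]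
      by_contra h0
      apply hgen
      rw [isGeneric_wbar_iff M hθ hζ, ← key Q h0]
      exact Q.algebraMap_mem'
    rw [h1, map_zero]

end V1

end Fermat.Agent.S26
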