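import Fermat.Agent.S26.Top.V1.Field
import Fermat.Agent.S26.Lambda

/-! # S26 / V1-Shear : the shear automorphism of `F(C)`.

`𝕃 = CF K F FC`, `z = zOf η α = η - α ∈ A(𝕃)` is generic (`isGeneric_eta_add` with `ε = -α`).  Put `i = emb z`,
`j = inr`.  `fd η_𝕃 = range inl` (`fd_map`, `fd_eq_fieldRange`, `emb_map_eta`), and `η_𝕃 = z + α_𝕃` gives
`range inl ≤ fd z ⊔ fd α_𝕃 ≤ range i ⊔ range j` (`fd_add_le`, `fd_map_le`, `fd_eq_fieldRange`), so
`range i ⊔ range j = ⊤` (`StepA.fieldRange_inl_sup_inr`).  Its trdeg is `trdeg 𝕃 = trdeg F + trdeg FC` (`trdeg_CF`),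
finite (`M.trdeg_eq`, `FF1.trdeg_eq_one`): `V1.productMap_injective_of_trdeg` gives injectivity, and
`TopAlg.exists_equiv_CF` gives `θ` with `θ ∘ inl = emb z`, `θ ∘ inr = inr`; `map (emb z) η = z` is `map_emb_eta`. -/

set_option autoImplicit false

universe u

namespace Fermat.Agent.S26

open AlgebraicCurve IsLocalRing

variable {K : Type u} [Field K] [IsAlgClosed K] {F : Type u} [Field F] [Algebra K F] (M : AVModel K F)

namespace V1

variable {FC : Type u} [Field FC] [Algebra K FC]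

theorem isGeneric_zOf_eta (α : M.Pt FC) : M.IsGeneric (M.zOf M.eta α) := by
  have := M.isGeneric_eta_add (-α)
  rw [M.map_neg, ← sub_eq_add_neg] at this
  exact this

/-- `θ` is a shear: `θ(η) = η - α`, `θ = id` on `FC` -/
structure IsShear (α : M.Pt FC) (θ : CF K F FC ≃ₐ[K] CF K F FC) : Prop where
  map_eta : M.map θ.toAlgHom (M.bc F (CF K F FC) M.eta) = M.zOf M.eta α
  comp_inr : θ.toAlgHom.comp (CF.inr K F FC) = CF.inr K F FC

theorem exists_shear [FF1 K FC] (α : M.Pt FC) : ∃ θ : CF K F FC ≃ₐ[K] CF K F FC, IsShear M α θ := by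
  have hgen := isGeneric_zOf_eta M α
  have h1 : M.fd (M.bc F (CF K F FC) M.eta) = (CF.inl K F FC).fieldRange := by
    change M.fd (M.map (CF.inl K F FC) M.eta) = _
    rw [M.fd_eq_fieldRange _ (M.isGeneric_map_eta _), M.emb_map_eta]
  have htop : (M.emb (M.zOf M.eta α) hgen).fieldRange ⊔ (CF.inr K F FC).fieldRange = ⊤ := by
    rw [eq_top_iff, ← StepA.fieldRange_inl_sup_inr]
    apply sup_le _ le_sup_right
    rw [← h1]
    have : M.bc F (CF K F FC) M.eta = M.zOf M.eta α + M.map (CF.inr K F FC) α := by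
      rw [AVModel.zOf]; abel
    rw [this]
    refine (M.fd_add_le _ _).trans (sup_le_sup ?_ (M.fd_map_le _ _))
    rw [M.fd_eq_fieldRange _ hgen]
  have hinj : Function.Injective (Algebra.TensorProduct.productMap (M.emb (M.zOf M.eta α) hgen)
      (CF.inr K F FC)) := by
    apply productMap_injective_of_trdeg
    · rw [M.trdeg_eq, FF1.trdeg_eq_one]
      exact_mod_cast Cardinal.natCast_lt_aleph0 (n := M.g + 1)
    · rw [htop, ← trdeg_CF]
      exact (IntermediateField.topEquiv (F := K) (E := CF K F FC)).trdeg_eq.ge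
  obtain ⟨θ, hθ1, hθ2⟩ := TopAlg.exists_equiv_CF _ _ hinj htop
  refine ⟨θ, ?_, hθ2⟩
  change M.map θ.toAlgHom (M.map (CF.inl K F FC) M.eta) = _
  rw [← M.map_comp, hθ1]
  exact M.map_emb_eta _ hgen

variable {M}

namespace IsShear

variable {α : M.Pt FC} {θ : CF K F FC ≃ₐ[K] CF K F FC}

theorem apply_inr (h : IsShear M α θ) (a : FC) : θ (CF.inr K F FC a) = CF.inr K F FC a :=
  DFunLike.congr_fun h.comp_inr a

theorem symm_apply_inr (h : IsShear M α θ) (a : FC) : θ.symm (CF.inr K F FC a) = CF.inr K F FC a :=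
  (θ.symm_apply_eq).mpr (h.apply_inr a).symm

theorem map_inr (h : IsShear M α θ) (β : M.Pt FC) :
    M.map θ.toAlgHom (M.map (CF.inr K F FC) β) = M.map (CF.inr K F FC) β := by
  rw [← M.map_comp, h.comp_inr]

/-- `θ(η + α) = η` -/
theorem map_eta_add (h : IsShear M α θ) :
    M.map θ.toAlgHom (M.bc F (CF K F FC) M.eta + M.map (CF.inr K F FC) α) = M.bc F (CF K F FC) M.eta := by
  rw [M.map_add, h.map_eta, h.map_inr, AVModel.zOf, sub_add_cancel]

theorem ev_bc_eta (r : F) : M.ev (M.bc F (CF K F FC) M.eta) r = algebraMap F (CF K F FC) r := by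
  rw [AVModel.bc, M.ev_map _ _ r (M.mem_O_ctr_eta r), M.ev_eta]
  rfl

/-- `θ ∘ inl = emb (η - α)` -/
theorem apply_inl (h : IsShear M α θ) (r : F) : θ (algebraMap F (CF K F FC) r) = M.ev (M.zOf M.eta α) r := by
  have hr : r ∈ M.O (M.ctr (M.bc F (CF K F FC) M.eta)) := by
    rw [AVModel.bc, M.isGeneric_map_eta, M.O_genPt]; trivial
  rw [← h.map_eta, M.ev_map _ _ r hr, ev_bc_eta]
  rfl

/-- `θ ∘ emb (η + α) = inl` -/
theorem apply_ev (h : IsShear M α θ) (r : F) :
    θ (M.ev (M.bc F (CF K F FC) M.eta + M.map (CF.inr K F FC) α) r) = algebraMap F (CF K F FC) r := by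
  have hr : r ∈ M.O (M.ctr (M.bc F (CF K F FC) M.eta + M.map (CF.inr K F FC) α)) := by
    rw [M.isGeneric_eta_add α, M.O_genPt]; trivial
  have h1 := M.ev_map θ.toAlgHom _ r hr
  rw [h.map_eta_add, ev_bc_eta] at h1
  exact h1.symm

end IsShear

end V1

end Fermat.Agent.S26
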